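import Mathlib
import Fermat.Agent.LT.T7.H505.HaarSigma
import Fermat.Agent.LT.T7.H751.FactDownQSpec

/-!
# Row LT, tower T7, node Q2.7.7 `MQ298.FactDownQC298`, leaf FDQ.9 (helper751, SPARE of registry
row 2703): `HaarSigmaRC751` PROVED

OFF-MAIN.  No hole, nothing assumed.  ADDITIVE (new names only, suffix `751`).

    haarSigmaRC751 : HaarSigmaRC751

`GL₂(ℝ)` is σ-compact (closed in `M₂(ℝ) × M₂(ℝ)ᵐᵒᵖ`), a Haar measure is finite on compact sets;
a centraliser is a closed subgroup.  On the general lemmas of helper505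
(`T7/H505/HaarSigma.lean`, byte-identical copy): `sigmaCompactSpace_GL505`,
`sigmaFinite_haar505`, `sigmaFinite_map_val505`, `isClosed_twCentSub505`.
-/

set_option autoImplicit false

open IsDedekindDomain NumberField MeasureTheory

noncomputable section

namespace Fermat.Agent.LT.T7.H751

open Fermat.Agent.LT.H556 Fermat.Agent.LT.H556.A0 Fermat.Agent.LT.T7 Fermat.Agent.LT.T7.H305

theorem sigmaCompactSpace_GL_real751 : SigmaCompactSpace (GL (Fin 2) ℝ) :=
  H505.sigmaCompactSpace_GL505 ℝ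

/-- **LEAF FDQ.9 = HAAR-SIGMA at the real place: PROVED.** -/
theorem haarSigmaRC751 : HaarSigmaRC751 := by
  have hs : SigmaCompactSpace (GL (Fin 2) ℝ) := sigmaCompactSpace_GL_real751
  refine ⟨fun μ hμ => H505.sigmaFinite_haar505 μ hμ, fun γ₀ μT hμ => ?_⟩
  exact H505.sigmaFinite_map_val505 _
    (H505.isClosed_twCentSub505 (MonoidHom.id (GL (Fin 2) ℝ)) continuous_id γ₀) μT hμ

end Fermat.Agent.LT.T7.H751

end
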