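import Mathlib
import Fermat.Agent.LT.T7.H751.FactDownQSpec

/-!
# Row LT, tower T7, node Q2.7.7 `MQ298.FactDownQC298`, asset leaf FDQ.2 (helper751, SPARE of
registry row 2697): `ReContQC751` PROVED

OFF-MAIN.  No hole, nothing assumed.  ADDITIVE (new names only, suffix `751`).

    reContQC751 : ReContQC751

The real component `GL₂(𝔸_ℚ) → GL₂(ℝ)` is continuous: `MQ298.reHomQ298` is a continuous ring
homomorphism (projection, evaluation, `extensionEmbeddingOfIsReal` is an isometry), the map of
matrices of a continuous map is continuous, `Units.map` of a continuous homomorphism of monoids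
is continuous.  Mirror of `compContC409` (helper409).
-/

set_option autoImplicit false

open IsDedekindDomain NumberField Topology

noncomputable section

namespace Fermat.Agent.LT.T7.H751

open Fermat.Agent.LT.H556 Fermat.Agent.LT.H556.A0 Fermat.Agent.LT.T7 Fermat.Agent.LT.T7.H305

/-- The component at the real place of `ℚ` is continuous on the adeles. -/
theorem continuous_reHomQ751 : Continuous (MQ298.reHomQ298) := by
  have h1 : Continuous
      (InfinitePlace.Completion.extensionEmbeddingOfIsReal Rat.isReal_infinitePlace) :=
    (InfinitePlace.Completion.isometry_extensionEmbeddingOfIsReal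
      Rat.isReal_infinitePlace).continuous
  have h2 : Continuous fun x : InfiniteAdeleRing ℚ => x Rat.infinitePlace :=
    continuous_apply (A := fun v : InfinitePlace ℚ => v.Completion) Rat.infinitePlace
  exact h1.comp (h2.comp continuous_fst)

/-- `GL_n` of a continuous ring homomorphism is continuous. -/
theorem continuous_glMap751 {n : Type} [Fintype n] [DecidableEq n]
    {R S : Type} [CommRing R] [CommRing S] [TopologicalSpace R] [TopologicalSpace S]
    [IsTopologicalRing R] [IsTopologicalRing S] (f : R →+* S) (hf : Continuous f) :
    Continuous (Matrix.GeneralLinearGroup.map (n := n) f) := by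
  have hm : Continuous ((RingHom.mapMatrix (m := n) f).toMonoidHom) := by
    have : Continuous fun A : Matrix n n R => A.map f := continuous_id.matrix_map hf
    exact this
  exact Continuous.units_map ((RingHom.mapMatrix (m := n) f).toMonoidHom) hm

/-- **ASSET LEAF FDQ.2 = RE-CONT of the cut of `MQ298.FactDownQC298`: PROVED.** -/
theorem reContQC751 : ReContQC751 :=
  continuous_glMap751 MQ298.reHomQ298 continuous_reHomQ751

end Fermat.Agent.LT.T7.H751

end
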